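import Mathlib.Algebra.Polynomial.Roots
import Mathlib.LinearAlgebra.Dual.Lemmas
import Mathlib.LinearAlgebra.Eigenspace.Triangularizable
import Mathlib.LinearAlgebra.Determinant
import Mathlib.RingTheory.Nilpotent.Exp
import Mathlib.RingTheory.Nilpotent.Lemmas
import Mathlib.RingTheory.Polynomial.Pochhammer

/-!
# Logarithms of unipotent elements

The powers of a unipotent element are polynomial in the exponent, and the linear coefficient is
the logarithm.  In a representation, a central commutator has a power which is unipotent.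
-/

set_option autoImplicit false

noncomputable section

namespace FA.SLRep

open Polynomial

variable {k : Type*} [Field k] [CharZero k] {A : Type*} [Ring A] [Algebra k A]

/-- `f` is polynomial with derivative `X` at zero. -/
def HasDeriv (f : ℕ → A) (X : A) : Prop :=
  ∃ P : A[X], (∀ t : ℕ, f t = P.eval (t : A)) ∧ P.coeff 1 = X

omit [Algebra k A] in
theorem HasDeriv.congr {f g : ℕ → A} {X : A} (h : HasDeriv f X) (hfg : ∀ t, g t = f t) :
    HasDeriv g X :=
  h.imp fun _ hP => ⟨fun t => (hfg t).trans (hP.1 t), hP.2⟩

theorem hasDeriv_const (b : A) : HasDeriv (fun _ => b) 0 :=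
  ⟨C b, fun _ => (eval_C).symm, coeff_C_succ⟩

theorem hasDeriv_cast : HasDeriv (fun t => (t : A)) 1 :=
  ⟨Polynomial.X, fun _ => eval_X.symm, coeff_X_one⟩

theorem HasDeriv.mul {f g : ℕ → A} {X Y : A} (hf : HasDeriv f X) (hg : HasDeriv g Y) :
    HasDeriv (fun t => f t * g t) (f 0 * Y + X * g 0) := by
  obtain ⟨P, hP, rfl⟩ := hf
  obtain ⟨Q, hQ, rfl⟩ := hg
  refine ⟨P * Q, fun t => ?_, ?_⟩
  · show f t * g t = _
    rw [hP, hQ, eval, eval, eval, eval₂_mul_noncomm]
    exact fun i => (Nat.cast_commute t _).symm
  · rw [hP, hQ, Nat.cast_zero, ← coeff_zero_eq_eval_zero, ← coeff_zero_eq_eval_zero, coeff_mul,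
      Finset.Nat.antidiagonal_succ, Finset.sum_cons, Finset.Nat.antidiagonal_zero,
      Finset.map_singleton, Finset.sum_singleton]
    rfl

include k in
theorem HasDeriv.unique {f : ℕ → A} {X Y : A} (hX : HasDeriv f X) (hY : HasDeriv f Y) : X = Y := by
  obtain ⟨P, hP, rfl⟩ := hX
  obtain ⟨Q, hQ, rfl⟩ := hY
  rw [← sub_eq_zero, ← coeff_sub]
  set R := P - Q with hR
  have hzero : ∀ t : ℕ, R.eval (t : A) = 0 := fun t => by
    rw [hR, eval_sub, ← hP, ← hQ, sub_self]
  refine (Module.forall_dual_apply_eq_zero_iff k _).1 fun φ => ?_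
  let p : k[X] := ∑ j ∈ Finset.range (R.natDegree + 2), monomial j (φ (R.coeff j))
  have hp : p = 0 := by
    refine eq_zero_of_infinite_isRoot _ (Set.Infinite.mono ?_
      (Set.infinite_range_of_injective (Nat.cast_injective (R := k))))
    rintro _ ⟨t, rfl⟩
    simp only [p, IsRoot, Set.mem_ofPred_eq, eval_finsetSum, eval_monomial]
    have h := congrArg φ (hzero t)
    rw [eval_eq_sum_range' (show R.natDegree < R.natDegree + 2 by omega), map_sum, map_zero] at h
    refine (Finset.sum_congr rfl fun j _ => ?_).trans h
    rw [← Nat.cast_pow, ← Nat.cast_pow, ← nsmul_eq_mul', ← nsmul_eq_mul', map_nsmul]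
  have := congrArg (fun q => q.coeff 1) hp
  simpa [p, finsetSum_coeff, coeff_monomial] using this

variable (k) in
/-- The logarithm of a unipotent element. -/
def logU (u : A) : A :=
  ∑ i ∈ Finset.range (nilpotencyClass (u - 1)),
    ((descPochhammer k i).coeff 1 * (i.factorial : k)⁻¹) • (u - 1) ^ i

theorem hasDeriv_pow {u : A} (hu : IsNilpotent (u - 1)) :
    HasDeriv (fun t => u ^ t) (logU k u) := by
  refine ⟨∑ i ∈ Finset.range (nilpotencyClass (u - 1)),
    ((descPochhammer k i).map (algebraMap k A)) *
      C ((i.factorial : k)⁻¹ • (u - 1) ^ i), fun t => ?_, ?_⟩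
  · rw [eval_finsetSum]
    have h1 : u ^ t = ∑ i ∈ Finset.range (nilpotencyClass (u - 1)),
        (t.choose i : A) * (u - 1) ^ i := by
      conv_lhs => rw [← sub_add_cancel u 1, (Commute.one_right _).add_pow]
      simp only [one_pow, mul_one]
      rcases le_total (t + 1) (nilpotencyClass (u - 1)) with h | h
      · rw [← Finset.sum_subset (Finset.range_subset_range.2 h) fun i _ hi => by
          rw [Nat.choose_eq_zero_of_lt (by simpa using hi)]; simp]
        exact Finset.sum_congr rfl fun i _ => (Nat.cast_commute _ _).symm.eq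
      · rw [← Finset.sum_subset (Finset.range_subset_range.2 h) fun i _ hi => by
          rw [pow_eq_zero_of_le (by simpa using hi) (pow_nilpotencyClass hu)]; simp]
        exact Finset.sum_congr rfl fun i _ => (Nat.cast_commute _ _).symm.eq
    refine h1.trans (Finset.sum_congr rfl fun i _ => ?_)
    rw [eval_mul_C_of_commute (Nat.cast_commute _ _).symm]
    · rw [eval_natCast_map, descPochhammer_eval_eq_descFactorial,
        Nat.descFactorial_eq_factorial_mul_choose,
        Algebra.smul_def, ← mul_assoc, ← map_mul]
      push_cast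
      rw [← map_natCast (algebraMap k A) i.factorial, ← map_natCast (algebraMap k A) (t.choose i),
        ← map_mul, ← map_mul, mul_right_comm,
        mul_inv_cancel₀ (Nat.cast_ne_zero.2 i.factorial_ne_zero), one_mul,
        map_natCast]
  · rw [finsetSum_coeff, logU]
    refine Finset.sum_congr rfl fun i _ => ?_
    rw [coeff_mul_C, coeff_map, ← Algebra.smul_def, smul_smul]

omit [CharZero k] in
/-- The logarithm is `u - 1` times a unit commuting with it. -/
theorem logU_eq_mul {u : A} (hu : IsNilpotent (u - 1)) :
    ∃ q : A, IsNilpotent q ∧ Commute (u - 1) q ∧ logU k u = (u - 1) * (1 + q) := by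
  set x := u - 1
  set N := nilpotencyClass x with hN
  set a : ℕ → k := fun i => (descPochhammer k i).coeff 1 * (i.factorial : k)⁻¹ with ha
  set r := ∑ i ∈ Finset.range N, a (i + 2) • x ^ i
  have hr : Commute x r := Commute.sum_right _ _ _ fun i _ =>
    ((Commute.refl x).pow_right i).smul_right _
  refine ⟨x * r, (hr.isNilpotent_mul_right hu), (Commute.refl x).mul_right hr, ?_⟩
  have hext : logU k u = ∑ i ∈ Finset.range (N + 2), a i • x ^ i := by
    refine Finset.sum_subset (Finset.range_subset_range.2 (Nat.le_add_right _ 2)) fun i _ hi => ?_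
    rw [pow_eq_zero_of_le (by simpa [hN] using hi) (pow_nilpotencyClass hu), smul_zero]
  rw [hext, Finset.sum_range_succ', Finset.sum_range_succ']
  simp [ha, r, coeff_one, descPochhammer_zero, descPochhammer_one, mul_add, Finset.mul_sum,
    pow_succ', add_comm]
  refine Finset.sum_congr rfl fun i _ => ?_
  rw [show 1 + (i + 1) = i + 2 by omega, pow_succ', pow_succ']

omit [CharZero k] in
theorem isNilpotent_logU {u : A} (hu : IsNilpotent (u - 1)) : IsNilpotent (logU k u) := by
  obtain ⟨q, -, hq, he⟩ := logU_eq_mul (k := k) hu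
  rw [he]
  exact ((Commute.one_right _).add_right hq).isNilpotent_mul_right hu

omit [CharZero k] in
theorem eq_one_of_logU {u : A} (hu : IsNilpotent (u - 1)) (h : logU k u = 0) : u = 1 := by
  obtain ⟨q, hq, -, he⟩ := logU_eq_mul (k := k) hu
  rw [← sub_eq_zero]
  exact hq.isUnit_one_add.mul_left_eq_zero.1 (he.symm.trans h)

omit [CharZero k] in
theorem commute_logU {u b : A} (h : Commute b u) : Commute b (logU k u) :=
  Commute.sum_right _ _ _ fun i _ => ((h.sub_right (Commute.one_right b)).pow_right i).smul_right _

omit [CharZero k] in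
/-- Whatever is stable under `u` is stable under the logarithm. -/
theorem logU_mem {u : A} {S : Subalgebra k A} (h : u ∈ S) : logU k u ∈ S :=
  sum_mem fun i _ => S.smul_mem (pow_mem (sub_mem h (one_mem S)) i) _

variable [Module ℚ A]

/-- **A unipotent element is the exponential of its logarithm.** -/
theorem exp_logU {u : A} (hu : IsNilpotent (u - 1)) : IsNilpotent.exp (logU k u) = u := by
  set L := logU k u with hLdef
  have hL : IsNilpotent L := isNilpotent_logU hu
  set v := IsNilpotent.exp (-L)
  have hv : IsNilpotent (v - 1) := IsNilpotent.isNilpotent_exp_sub_one hL.neg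
  have hpow : ∀ t : ℕ, v ^ t = IsNilpotent.exp ((t : A) * -L) := by
    intro t
    induction t with
    | zero => simp [IsNilpotent.exp_zero]
    | succ t ih =>
      rw [pow_succ, ih, Nat.cast_succ, add_one_mul, IsNilpotent.exp_add_of_commute
        ((Nat.cast_commute t (-L)).mul_left (Commute.refl _))
        ((Nat.cast_commute t _).isNilpotent_mul_left hL.neg) hL.neg]
  have hdv : HasDeriv (fun t => v ^ t) (-L) := by
    obtain ⟨N, hN⟩ := hL.neg
    refine ⟨∑ j ∈ Finset.range (N + 2), monomial j ((j.factorial : ℚ)⁻¹ • (-L) ^ j),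
      fun t => ?_, ?_⟩
    · show v ^ t = _
      rw [hpow, IsNilpotent.exp_eq_sum (k := N + 2), eval_finsetSum]
      · refine Finset.sum_congr rfl fun j _ => ?_
        rw [eval_monomial, (Nat.cast_commute t _).mul_pow, ← Nat.cast_pow, ← nsmul_eq_mul',
          ← nsmul_eq_mul, smul_comm]
      · rw [(Nat.cast_commute t _).mul_pow, pow_add (-L), hN, zero_mul, mul_zero]
    · simp [finsetSum_coeff, coeff_monomial]
  have hcomm : Commute u v := by
    have : Commute u L := commute_logU (Commute.refl u)
    refine Commute.sum_right _ _ _ fun i _ => ?_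
    exact (map_rat_smul (AddMonoidHom.mulLeft u) _ _).trans
      ((congrArg _ (this.neg_right.pow_right i).eq).trans
        (map_rat_smul (AddMonoidHom.mulRight u) _ _).symm)
  have hw : IsNilpotent (u * v - 1) := by
    rw [show u * v - 1 = (u - 1) * v + (v - 1) by noncomm_ring]
    refine Commute.isNilpotent_add ?_ ?_ hv
    · exact ((hcomm.sub_left (Commute.one_left v)).mul_left (Commute.refl v)).sub_right
        (Commute.one_right _)
    · exact (hcomm.sub_left (Commute.one_left v)).isNilpotent_mul_right hu
  have h0 : logU k (u * v) = 0 := by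
    refine (hasDeriv_pow (k := k) hw).unique (k := k)
      (((hasDeriv_pow (k := k) hu).mul hdv).congr fun t =>
      hcomm.mul_pow t) |>.trans ?_
    simp [← hLdef]
  calc IsNilpotent.exp L = u * v * IsNilpotent.exp L := by rw [eq_one_of_logU hw h0, one_mul]
    _ = u := by rw [mul_assoc, IsNilpotent.exp_neg_mul_exp_self hL, mul_one]

omit [Module ℚ A] [CharZero k] in
/-- **A central commutator has a unipotent power.** -/
theorem isNilpotent_pow_factorial_sub_one {V : Type*} [AddCommGroup V] [Module k V]
    [FiniteDimensional k V] [IsAlgClosed k] {a b c : Module.End k V} (ha : IsUnit a)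
    (hb : IsUnit b) (hac : Commute a c) (hbc : Commute b c)
    (h : a * b = b * a * c) :
    IsNilpotent (c ^ (Module.finrank k V).factorial - 1) := by
  set d := Module.finrank k V
  set N := d.factorial
  refine ⟨d, ?_⟩
  have hroot : ∀ μ, c.HasEigenvalue μ → μ ^ N = 1 := by
    intro μ hμ
    set W := c.eigenspace μ with hW
    have hmem : ∀ {f : Module.End k V}, Commute c f → ∀ x ∈ W, f x ∈ W := fun hf x hx => by
      rw [hW, Module.End.mem_eigenspace_iff] at hx ⊢
      rw [← Module.End.mul_apply, hf.eq, Module.End.mul_apply, hx, map_smul]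
    have hA : ∀ x ∈ W, a x ∈ W := hmem hac.symm
    have hB : ∀ x ∈ W, b x ∈ W := hmem hbc.symm
    have heq : a.restrict hA * b.restrict hB = μ • (b.restrict hB * a.restrict hA) := by
      refine LinearMap.ext fun x => Subtype.ext ?_
      show (a * b) x = μ • b (a x)
      rw [h, Module.End.mul_apply, Module.End.mem_eigenspace_iff.1 x.2, map_smul]
      rfl
    have hne : ∀ {f : Module.End k V} (hf : ∀ x ∈ W, f x ∈ W), IsUnit f →
        LinearMap.det (f.restrict hf) ≠ 0 := by
      intro f hf hu
      have hinj : Function.Injective (f.restrict hf) := fun x y e =>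
        Subtype.ext (((Module.End.isUnit_iff f).1 hu).1 (congrArg Subtype.val e))
      exact ((LinearMap.isUnit_iff_ker_eq_bot _).2 (LinearMap.ker_eq_bot.2 hinj)).map
        LinearMap.det |>.ne_zero
    have hd := congrArg LinearMap.det heq
    rw [LinearMap.det_smul, map_mul, map_mul, mul_comm (LinearMap.det (b.restrict hB))] at hd
    have h1 : μ ^ Module.finrank k W = 1 :=
      mul_right_cancel₀ (mul_ne_zero (hne hA ha) (hne hB hb))
        (hd.symm.trans (one_mul _).symm)
    have hpos : 0 < Module.finrank k W :=
      Module.finrank_pos_iff.2 (Submodule.nontrivial_iff_ne_bot.2 hμ)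
    obtain ⟨r, hr⟩ := Nat.dvd_factorial hpos (Submodule.finrank_le W)
    rw [show N = Module.finrank k W * r from hr, pow_mul, h1, one_pow]
  refine LinearMap.ext fun v => ?_
  have hv : v ∈ ⨆ μ : k, c.maxGenEigenspace μ :=
    (Module.End.iSup_maxGenEigenspace_eq_top c).symm ▸ Submodule.mem_top
  induction hv using Submodule.iSup_induction' with
  | mem μ x hx =>
    by_cases hx0 : x = 0
    · simp [hx0]
    have hμ : c.HasEigenvalue μ :=
      Module.End.hasEigenvalue_of_hasGenEigenvalue (k := d)
        (fun e => hx0 (by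
          rw [Module.End.maxGenEigenspace_eq_genEigenspace_finrank, e] at hx
          exact (Submodule.mem_bot k).1 hx))
    have hkey : c ^ N - 1 =
        (∑ i ∈ Finset.range N, c ^ i * (μ • 1) ^ (N - 1 - i)) * (c - μ • 1) := by
      rw [((Commute.one_right c).smul_right μ).geom_sum₂_mul, smul_pow, hroot μ hμ, one_pow,
        one_smul]
    have hcomm : Commute (∑ i ∈ Finset.range N, c ^ i * (μ • (1 : Module.End k V)) ^ (N - 1 - i))
        (c - μ • 1) := Commute.sum_left _ _ _ fun i _ => by
      refine ((Commute.refl c).pow_left i |>.mul_left ?_).sub_right ?_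
      · exact ((Commute.one_left c).smul_left μ).pow_left _
      · exact (Commute.one_right _).smul_right μ
    rw [Module.End.maxGenEigenspace_eq_genEigenspace_finrank,
      Module.End.mem_genEigenspace_nat, LinearMap.mem_ker] at hx
    rw [hkey, hcomm.mul_pow, Module.End.mul_apply, hx, map_zero, LinearMap.zero_apply]
  | zero => simp
  | add x y _ _ hx hy => simp only [map_add, hx, hy, LinearMap.zero_apply, add_zero]

/-- Whatever is stable under the logarithm is stable under the unipotent element. -/
theorem mem_of_logU_mem {B : Type*} [Ring B] [Algebra k B] {u : B} (hu : IsNilpotent (u - 1))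
    {S : Subalgebra k B} (h : logU k u ∈ S) : u ∈ S := by
  letI : Module ℚ B := Module.compHom B (Rat.castHom k)
  have : IsScalarTower ℚ k B := ⟨fun q c x => by rw [Rat.smul_def, mul_smul]; rfl⟩
  rw [← exp_logU (k := k) hu, IsNilpotent.exp]
  refine sum_mem fun i _ => ?_
  rw [← Rat.cast_smul_eq_qsmul k]
  exact S.smul_mem (pow_mem h i) _

omit [Module ℚ A] [CharZero k] in
/-- Stability under a unipotent element passes to its inverse. -/
theorem inv_mem_of_mem {u v : A} {S : Subalgebra k A} (hu : IsNilpotent (u - 1)) (hv : u * v = 1)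
    (h : u ∈ S) : v ∈ S := by
  obtain ⟨N, hN⟩ := hu.neg
  rw [neg_sub] at hN
  have hsum : (∑ i ∈ Finset.range N, (1 - u) ^ i) * u = 1 := by
    have := geom_sum_mul_neg (1 - u) N
    rwa [sub_sub_cancel, hN, sub_zero] at this
  rw [show v = ∑ i ∈ Finset.range N, (1 - u) ^ i by
    exact ((one_mul v).symm.trans (congrArg (· * v) hsum.symm)).trans
      ((mul_assoc _ u v).trans (by rw [hv, mul_one]))]
  exact sum_mem fun i _ => pow_mem (sub_mem (one_mem S) h) i

omit [Module ℚ A] in
theorem hasDeriv_pow_mul {u : A} (hu : IsNilpotent (u - 1)) (c : ℕ) :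
    HasDeriv (fun s => u ^ (c * s)) ((c : A) * logU k u) := by
  induction c with
  | zero => simpa using hasDeriv_const (1 : A)
  | succ c ih =>
    have := (ih.mul (hasDeriv_pow (k := k) hu)).congr (g := fun s => u ^ ((c + 1) * s))
      fun s => by rw [add_one_mul, pow_add]
    simpa [add_one_mul, add_comm] using this

end FA.SLRep

end
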