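import Fermat.Agent.SLRepresentations.Lie
import Fermat.Agent.SLRepresentations.Unipotent
import Fermat.Agent.CongruenceSL.Basic
import Mathlib.RepresentationTheory.Basic

/-!
# The infinitesimal representation

A representation of `SL n ℤ`, `n ≥ 3`, is unipotent on elementary matrices of a suitable level;
the logarithms give a representation of `sl n`, and the group intertwines it with conjugation.
-/

set_option autoImplicit false

noncomputable section

namespace FA.SLRep

open Matrix FA.CongruenceSL

attribute [local instance 100] LieRing.ofAssociativeRing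

variable {n : ℕ}

theorem tv_commute {i j a b : Fin n} (hij : i ≠ j) (hab : a ≠ b) (h1 : j ≠ a) (h2 : b ≠ i)
    (s t : ℤ) : Commute (tv i j hij s) (tv a b hab t) :=
  Subtype.ext (by
    simp [tv, transvection, mul_add, add_mul, single_mul_single_of_ne, h1, h2]
    abel)

theorem tv_swap {i j l : Fin n} (hij : i ≠ j) (hjl : j ≠ l) (hil : i ≠ l) (s t : ℤ) :
    tv i j hij s * tv j l hjl t = tv j l hjl t * tv i j hij s * tv i l hil (s * t) :=
  Subtype.ext (by
    simp [tv, transvection, mul_add, add_mul, single_mul_single_same, single_mul_single_of_ne,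
      hij.symm, hil.symm]
    abel)

theorem tv_nat_mul {i j : Fin n} (h : i ≠ j) (m t : ℕ) :
    tv i j h (m * t : ℕ) = tv i j h (m : ℤ) ^ t := by
  rw [Nat.cast_mul, mul_comm, tv_mul_int, zpow_natCast]

variable {k : Type*} [Field k] [CharZero k] {V : Type*} [AddCommGroup V] [Module k V]

/-- An integral matrix over `k`. -/
def castMat (k : Type*) [Field k] (g : SpecialLinearGroup (Fin n) ℤ) : Matrix (Fin n) (Fin n) k :=
  g.1.map (Int.castRingHom k)

omit [CharZero k] in
theorem castMat_mul (g h : SpecialLinearGroup (Fin n) ℤ) :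
    castMat k (g * h) = castMat k g * castMat k h := by
  rw [castMat, SpecialLinearGroup.coe_mul]
  exact Matrix.map_mul

omit [CharZero k] in
theorem castMat_one : castMat k (1 : SpecialLinearGroup (Fin n) ℤ) = 1 := by
  rw [castMat, SpecialLinearGroup.coe_one]
  exact Matrix.map_one _ (map_zero _) (map_one _)

omit [CharZero k] in
theorem castMat_tv {i j : Fin n} (h : i ≠ j) (t : ℤ) :
    castMat k (tv i j h t) = 1 + Matrix.single i j (t : k) := by
  ext a b
  simp only [castMat, tv_val, transvection, Matrix.map_apply, Matrix.add_apply, Matrix.one_apply,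
    Matrix.single_apply, map_add, apply_ite (Int.castRingHom k), map_one, map_zero,
    eq_intCast]

/-- Conjugation by an element of `SL n ℤ`. -/
def conjSL (g : SpecialLinearGroup (Fin n) ℤ) : SL' n k →ₗ⁅k⁆ SL' n k where
  toFun M := ⟨castMat k g * M.1 * castMat k g⁻¹, by
    show Matrix.trace (castMat k g * M.1 * castMat k g⁻¹) = 0
    rw [trace_mul_comm, ← mul_assoc, ← castMat_mul, inv_mul_cancel, castMat_one, one_mul]
    exact LinearMap.mem_ker.1 M.2⟩
  map_add' M N := Subtype.ext (by simp [mul_add, add_mul])
  map_smul' c M := Subtype.ext (by simp)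
  map_lie' := fun {M N} => Subtype.ext (by
    have h : castMat k g⁻¹ * castMat k g = 1 := by rw [← castMat_mul, inv_mul_cancel, castMat_one]
    simp only [LieAlgebra.SpecialLinear.sl_bracket, mul_sub, sub_mul, ← mul_assoc]
    have h' : ∀ Y : Matrix (Fin n) (Fin n) k, castMat k g⁻¹ * (castMat k g * Y) = Y := fun Y => by
      rw [← mul_assoc, h, one_mul]
    simp only [mul_assoc, h'])

omit [CharZero k] in
theorem conjSL_val (g : SpecialLinearGroup (Fin n) ℤ) (M : SL' n k) :
    (conjSL g M).1 = castMat k g * M.1 * castMat k g⁻¹ := rfl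

omit [CharZero k] in
theorem conjSL_mul (g h : SpecialLinearGroup (Fin n) ℤ) (M : SL' n k) :
    conjSL (g * h) M = conjSL g (conjSL h M) := by
  refine Subtype.ext ?_
  simp only [conjSL_val, _root_.mul_inv_rev, castMat_mul, mul_assoc]

omit [CharZero k] in
theorem conjSL_one (M : SL' n k) : conjSL 1 M = M := by
  refine Subtype.ext ?_
  simp [conjSL_val, castMat_one]

variable [FiniteDimensional k V] [IsAlgClosed k]
  (ρ : Representation k (SpecialLinearGroup (Fin n) ℤ) V)

variable (k V) in
/-- The level. -/
def lev : ℕ := (Module.finrank k V).factorial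

omit [FiniteDimensional k V] [IsAlgClosed k] in
variable (k V) in
theorem lev_ne_zero : (lev k V : k) ≠ 0 :=
  Nat.cast_ne_zero.2 (Nat.factorial_ne_zero _)

/-- The image of the elementary matrix of this level. -/
def U (i j : Fin n) (h : i ≠ j) : Module.End k V := ρ (tv i j h (lev k V : ℤ))

omit [CharZero k] [FiniteDimensional k V] [IsAlgClosed k] in
theorem U_pow {i j : Fin n} (h : i ≠ j) (t : ℕ) :
    ρ (tv i j h (lev k V * t : ℕ)) = U ρ i j h ^ t := by
  rw [tv_nat_mul, map_pow]
  rfl

omit [CharZero k] [FiniteDimensional k V] [IsAlgClosed k] in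
theorem isUnit_rho (g : SpecialLinearGroup (Fin n) ℤ) : IsUnit (ρ g) :=
  (Group.isUnit g).map ρ

omit [CharZero k] in
theorem unipotent (hn : 3 ≤ n) {i j : Fin n} (h : i ≠ j) : IsNilpotent (U ρ i j h - 1) := by
  obtain ⟨l, hli, hlj⟩ : ∃ l, l ≠ i ∧ l ≠ j := Fin.exists_ne_and_ne_of_two_lt i j hn
  have key := isNilpotent_pow_factorial_sub_one (a := ρ (tv i l hli.symm 1))
    (b := ρ (tv l j hlj 1)) (c := ρ (tv i j h 1)) (isUnit_rho ρ _) (isUnit_rho ρ _)
    ((tv_commute hli.symm h hli h.symm _ _).map ρ)
    ((tv_commute hlj h h.symm hlj.symm _ _).map ρ)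
    (by rw [← map_mul, ← map_mul, ← map_mul, tv_swap hli.symm hlj h 1 1, mul_one])
  rwa [← map_pow, ← zpow_natCast, ← tv_mul_int, mul_one] at key

/-- The operators attached to the elementary matrices. -/
def X (i j : Fin n) : Module.End k V :=
  if h : i = j then 0 else (lev k V : k)⁻¹ • logU k (U ρ i j h)

omit [CharZero k] [FiniteDimensional k V] [IsAlgClosed k] in
theorem X_eq {i j : Fin n} (h : i ≠ j) : X ρ i j = (lev k V : k)⁻¹ • logU k (U ρ i j h) :=
  dif_neg h

omit [CharZero k] [FiniteDimensional k V] [IsAlgClosed k] in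
theorem commute_X {i j : Fin n} (h : i ≠ j) {f : Module.End k V} (hf : Commute f (U ρ i j h)) :
    Commute f (X ρ i j) := by
  rw [X_eq ρ h]
  exact (commute_logU hf).smul_right _

theorem chevalley (hn : 3 ≤ n) : Chevalley (X ρ) where
  comm i j a b hij hab h1 h2 := by
    rw [Ring.lie_def, sub_eq_zero]
    exact (commute_X ρ hab (commute_X ρ hij
      ((tv_commute hij hab h1 h2 _ _).symm.map ρ)).symm).eq
  adjacent i j l hij hjl hil := by
    set m := lev k V
    set A := U ρ i j hij
    set B := U ρ j l hjl
    set C := U ρ i l hil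
    have hA := unipotent ρ hn hij
    have hB := unipotent ρ hn hjl
    have hC := unipotent ρ hn hil
    have hst : ∀ s t : ℕ, A ^ s * B ^ t = B ^ t * (A ^ s * C ^ (m * t * s)) := by
      intro s t
      rw [← U_pow ρ hij, ← U_pow ρ hjl, ← U_pow ρ hil, ← map_mul, ← map_mul, ← map_mul,
        tv_swap hij hjl hil, mul_assoc]
      congr 4
      push_cast
      ring
    have h1 : ∀ t : ℕ, logU k A * B ^ t =
        B ^ t * logU k A + B ^ t * ((m * t : ℕ) * logU k C) := by
      intro t
      have := (((hasDeriv_pow (k := k) hA).mul (hasDeriv_const (B ^ t))).congr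
        (g := fun s => B ^ t * (A ^ s * C ^ (m * t * s))) fun s => (hst s t).symm).unique (k := k)
        ((hasDeriv_const (B ^ t)).mul
          ((hasDeriv_pow (k := k) hA).mul (hasDeriv_pow_mul (k := k) hC (m * t))))
      simpa [mul_add, add_comm] using this
    have h2 : logU k A * logU k B = logU k B * logU k A + (m : Module.End k V) * logU k C := by
      have := (((hasDeriv_const (logU k A)).mul (hasDeriv_pow (k := k) hB)).congr
        (g := fun t => B ^ t * logU k A + (t : Module.End k V) *
          (B ^ t * ((m : Module.End k V) * logU k C))) fun t => ?_)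
      · have h3 := ((hasDeriv_pow (k := k) hB).mul (hasDeriv_const (logU k A)))
        obtain ⟨P, hP, hP1⟩ := h3
        obtain ⟨Q, hQ, hQ1⟩ := (hasDeriv_cast (A := Module.End k V)).mul
          ((hasDeriv_pow (k := k) hB).mul (hasDeriv_const ((m : Module.End k V) * logU k C)))
        have h4 : HasDeriv (fun t => B ^ t * logU k A + (t : Module.End k V) *
            (B ^ t * ((m : Module.End k V) * logU k C))) (P.coeff 1 + Q.coeff 1) :=
          ⟨P + Q, fun t => by rw [Polynomial.eval_add, ← hP, ← hQ], Polynomial.coeff_add _ _ _⟩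
        rw [hP1, hQ1] at h4
        simpa using this.unique (k := k) h4
      · rw [h1, Nat.cast_mul, (Nat.cast_commute m (t : Module.End k V)).eq, mul_assoc,
          ← mul_assoc (B ^ t) (t : Module.End k V), ← (Nat.cast_commute t (B ^ t)).eq, mul_assoc]
    rw [X_eq ρ hij, X_eq ρ hjl, X_eq ρ hil, Ring.lie_def, smul_mul_smul_comm, smul_mul_smul_comm,
      ← smul_sub, h2, add_sub_cancel_left, ← nsmul_eq_mul, ← Nat.cast_smul_eq_nsmul k, smul_smul]
    congr 1
    field_simp [lev_ne_zero k V]
    rfl

/-- Derivative of the relation between `tv a b 1` and the powers of `U`. -/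
theorem rho_logU (hn : 3 ≤ n) {i j a b p q : Fin n} (hij : i ≠ j) (hab : a ≠ b) (hpq : p ≠ q)
    (h : ∀ s : ℕ, ρ (tv a b hab 1) * U ρ i j hij ^ s =
      U ρ i j hij ^ s * ρ (tv a b hab 1) * U ρ p q hpq ^ s) :
    ρ (tv a b hab 1) * logU k (U ρ i j hij) =
      logU k (U ρ i j hij) * ρ (tv a b hab 1) + ρ (tv a b hab 1) * logU k (U ρ p q hpq) := by
  have := (((hasDeriv_const (ρ (tv a b hab 1))).mul
    (hasDeriv_pow (k := k) (unipotent ρ hn hij))).congr
      (g := fun s => U ρ i j hij ^ s * ρ (tv a b hab 1) * U ρ p q hpq ^ s) fun s => (h s).symm)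
  simpa [add_comm] using this.unique (k := k)
    (((hasDeriv_pow (k := k) (unipotent ρ hn hij)).mul (hasDeriv_const _)).mul
      (hasDeriv_pow (k := k) (unipotent ρ hn hpq)))

/-- **Infinitesimal superrigidity.** -/
theorem exists_pi (hn : 3 ≤ n) : ∃ π : SL' n k →ₗ⁅k⁆ Module.End k V,
    (∀ i j (h : i ≠ j), π (elt i j h) = X ρ i j) ∧
      ∀ g M, ρ g * π M = π (conjSL g M) * ρ g := by
  obtain ⟨π, hπ⟩ := (chevalley ρ hn).exists_hom (k := k) hn
  refine ⟨π, hπ, fun g => ?_⟩
  have gen : ∀ a b (hab : a ≠ b), ∀ M, ρ (tv a b hab 1) * π M =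
      π (conjSL (tv a b hab 1) M) * ρ (tv a b hab 1) := by
    intro a b hab
    set G := ρ (tv a b hab 1) with hG
    let T : LieSubalgebra k (SL' n k) :=
      { carrier := {M | G * π M = π (conjSL (tv a b hab 1) M) * G}
        zero_mem' := by simp
        add_mem' := fun {x y} hx hy => by
          simp only [Set.mem_ofPred_eq] at *
          rw [map_add, map_add, map_add, mul_add, add_mul, hx, hy]
        smul_mem' := fun c x hx => by
          simp only [Set.mem_ofPred_eq] at *
          rw [map_smul, map_smul, map_smul, mul_smul_comm, smul_mul_assoc, hx]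
        lie_mem' := fun {x y} hx hy => by
          simp only [Set.mem_ofPred_eq] at *
          rw [LieHom.map_lie, LieHom.map_lie, LieHom.map_lie, Ring.lie_def, Ring.lie_def, mul_sub,
            sub_mul, ← mul_assoc, hx, mul_assoc, hy, ← mul_assoc, ← mul_assoc G, hy,
            mul_assoc (π _) G, hx, ← mul_assoc] }
    have hT : T = ⊤ := subalgebra_eq_top hn (a := b) (b := a) fun i j hij hne => by
      show G * π (elt i j hij) = π (conjSL (tv a b hab 1) (elt i j hij)) * G
      rw [hπ]
      rcases eq_or_ne b i with rfl | hbi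
      · have hja : j ≠ a := fun e => hne ⟨rfl, e⟩
        have hd := rho_logU ρ hn hij hab hja.symm fun s => by
          rw [← U_pow, ← U_pow, ← map_mul, ← map_mul, ← map_mul, tv_swap hab hij hja.symm, one_mul]
        have hval : conjSL (tv a b hab 1) (elt b j hij : SL' n k) =
            elt b j hij + elt a j hja.symm := by
          refine Subtype.ext ?_
          rw [conjSL_val, ← tv_neg, castMat_tv, castMat_tv]
          simp [mul_add, add_mul, single_mul_single_same, single_mul_single_of_ne, hja]
        have hc : Commute G (logU k (U ρ a j hja.symm)) :=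
          commute_logU ((tv_commute hab hja.symm hab.symm hja _ _).map ρ)
        rw [hval, map_add, hπ, hπ, X_eq ρ hij, X_eq ρ hja.symm, mul_smul_comm, hd, add_mul,
          smul_mul_assoc, smul_mul_assoc, hc.eq, smul_add]
      · rcases eq_or_ne j a with rfl | hja
        · have hd : logU k (U ρ i j hij) * G = G * logU k (U ρ i j hij) +
              logU k (U ρ i b hbi.symm) * G := by
            have hr : ∀ s : ℕ, U ρ i j hij ^ s * G =
                G * U ρ i j hij ^ s * U ρ i b hbi.symm ^ s := fun s => by
              rw [hG, ← U_pow, ← U_pow, ← map_mul, ← map_mul, ← map_mul,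
                tv_swap hij hab hbi.symm, mul_one]
            have := (((hasDeriv_pow (k := k) (unipotent ρ hn hij)).mul (hasDeriv_const G)).congr
              (g := fun s => G * U ρ i j hij ^ s * U ρ i b hbi.symm ^ s)
              fun s => (hr s).symm).unique (k := k)
              (((hasDeriv_const G).mul (hasDeriv_pow (k := k) (unipotent ρ hn hij))).mul
                (hasDeriv_pow (k := k) (unipotent ρ hn hbi.symm)))
            have hc : Commute G (logU k (U ρ i b hbi.symm)) :=
              commute_logU ((tv_commute hab hbi.symm hbi hab.symm _ _).map ρ)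
            rw [← hc.eq]
            simpa [add_comm] using this
          have hval : conjSL (tv j b hab 1) (elt i j hij : SL' n k) =
              elt i j hij - elt i b hbi.symm := by
            refine Subtype.ext ?_
            rw [conjSL_val, ← tv_neg, castMat_tv, castMat_tv]
            simp [mul_add, add_mul, single_mul_single_same, single_mul_single_of_ne, hbi,
              ← single_neg, sub_eq_add_neg]
          rw [hval, map_sub, hπ, hπ, X_eq ρ hij, X_eq ρ hbi.symm, sub_mul, smul_mul_assoc,
            smul_mul_assoc, hd, smul_add, add_sub_cancel_right, mul_smul_comm]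
        · have hc : Commute G (X ρ i j) :=
            commute_X ρ hij ((tv_commute hab hij hbi hja _ _).map ρ)
          have hval : conjSL (tv a b hab 1) (elt i j hij : SL' n k) = elt i j hij := by
            refine Subtype.ext ?_
            rw [conjSL_val, ← tv_neg, castMat_tv, castMat_tv]
            simp [mul_add, add_mul, single_mul_single_of_ne, hbi, hja]
          rw [hval, hπ, hc.eq]
    intro M
    exact (hT.symm ▸ LieSubalgebra.mem_top M : M ∈ T)
  let K : Subgroup (SpecialLinearGroup (Fin n) ℤ) :=
    { carrier := {g | ∀ M, ρ g * π M = π (conjSL g M) * ρ g}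
      one_mem' := fun M => by rw [map_one, conjSL_one, one_mul, mul_one]
      mul_mem' := fun {g h} hg hh M => by
        rw [map_mul, conjSL_mul, mul_assoc, hh, ← mul_assoc, hg, mul_assoc]
      inv_mem' := fun {g} hg M => by
        have h := hg (conjSL g⁻¹ M)
        rw [← conjSL_mul, mul_inv_cancel, conjSL_one] at h
        refine (isUnit_rho ρ g).mul_left_cancel ?_
        rw [← mul_assoc, ← mul_assoc, h, ← map_mul, mul_inv_cancel, map_one, one_mul, mul_assoc,
          ← map_mul, mul_inv_cancel, map_one, mul_one] }
  suffices g ∈ K from this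
  induction g using induction_tv hn with
  | h1 => exact K.one_mem
  | hmul i j h t g hg =>
    rw [show tv i j h t = tv i j h 1 ^ t by rw [← tv_mul_int, mul_one]]
    exact K.mul_mem (K.zpow_mem (gen i j h) t) hg

end FA.SLRep

end
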