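import Mathlib.Algebra.Lie.Classical
import Mathlib.Algebra.Lie.Semisimple.Basic
import Mathlib.Data.Fintype.Prod
import Mathlib.LinearAlgebra.Matrix.Trace
import Mathlib.Tactic.Module
import Mathlib.Tactic.NoncommRing

/-!
# The Lie algebra `sl n`

For `n ≥ 3` it is simple, and a family of elements with the relations of the elementary matrices
extends to a homomorphism of Lie algebras.
-/

set_option autoImplicit false

noncomputable section

namespace FA.SLRep

open Matrix LieAlgebra.SpecialLinear

variable {k : Type*} [Field k] {n : ℕ}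

attribute [local instance 100] LieRing.ofAssociativeRing

/-- The special linear Lie algebra. -/
abbrev SL' (n : ℕ) (k : Type*) [Field k] := sl (Fin n) k

/-- The elementary element. -/
abbrev elt (i j : Fin n) (h : i ≠ j) : SL' n k := single i j h 1

/-- The diagonal element. -/
abbrev dia (i j : Fin n) : SL' n k := singleSubSingle i j 1

theorem lie_elt_adjacent {i j l : Fin n} (hij : i ≠ j) (hjl : j ≠ l) (hil : i ≠ l) :
    ⁅(elt i j hij : SL' n k), (elt j l hjl : SL' n k)⁆ = elt i l hil :=
  Subtype.ext (by simp [Ring.lie_def, single_mul_single_of_ne, hil.symm])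

theorem lie_elt_comm {i j a b : Fin n} (hij : i ≠ j) (hab : a ≠ b) (h1 : j ≠ a) (h2 : b ≠ i) :
    ⁅(elt i j hij : SL' n k), (elt a b hab : SL' n k)⁆ = 0 :=
  Subtype.ext (by simp [Ring.lie_def, single_mul_single_of_ne, h1, h2])

theorem lie_elt_opposite {i j : Fin n} (hij : i ≠ j) :
    ⁅(elt i j hij : SL' n k), (elt j i hij.symm : SL' n k)⁆ = dia i j :=
  Subtype.ext (by simp [Ring.lie_def])

theorem dia_add (i j l : Fin n) : (dia i j : SL' n k) + dia j l = dia i l := by
  ext : 1
  simp

/-- Elementary and diagonal elements span. -/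
theorem eq_sum (o : Fin n) (M : SL' n k) :
    M = (∑ p : Fin n × Fin n, if h : p.1 ≠ p.2 then M.1 p.1 p.2 • elt p.1 p.2 h else 0) +
      ∑ i, M.1 i i • dia i o := by
  refine Subtype.ext (Matrix.ext fun a b => ?_)
  have htr : ∑ i, M.1 i i = 0 := LinearMap.mem_ker.1 M.2
  rw [Submodule.coe_add, Matrix.add_apply]
  have h1 : ((∑ i, M.1 i i • (dia i o : SL' n k) : SL' n k) : Matrix (Fin n) (Fin n) k) a b =
      if a = b then M.1 a a else 0 := by
    simp only [AddSubmonoidClass.coe_finsetSum, Matrix.sum_apply, SetLike.val_smul,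
      val_singleSubSingle, Matrix.smul_apply, Matrix.sub_apply, single_apply, smul_eq_mul, mul_sub,
      Finset.sum_sub_distrib, ← Finset.sum_mul, htr, zero_mul, sub_zero]
    by_cases hab : a = b
    · subst hab
      simp
    · rw [if_neg hab, Finset.sum_eq_zero]
      intro i _
      rw [if_neg (fun h => hab (h.1.symm.trans h.2)), mul_zero]
  rw [h1, AddSubmonoidClass.coe_finsetSum, Matrix.sum_apply]
  by_cases hab : a = b
  · subst hab
    rw [Finset.sum_eq_zero, if_pos rfl, zero_add]
    rintro ⟨p, q⟩ -
    split_ifs with h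
    · simp only [SetLike.val_smul, val_single, Matrix.smul_apply, single_apply]
      rw [if_neg (fun e => h (e.1.trans e.2.symm)), smul_zero]
    · rfl
  · rw [if_neg hab, add_zero, Finset.sum_eq_single (a, b)]
    · simp [hab]
    · rintro ⟨p, q⟩ - hne
      split_ifs with h
      · simp only [SetLike.val_smul, val_single, Matrix.smul_apply, single_apply]
        rw [if_neg (fun e => hne (Prod.ext e.1 e.2)), smul_zero]
      · rfl
    · simp

/-- A submodule containing the elementary and diagonal elements is everything. -/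
theorem submodule_eq_top {S : Submodule k (SL' n k)} (h : ∀ i j hij, elt i j hij ∈ S)
    (hd : ∀ i j, dia i j ∈ S) : S = ⊤ := by
  refine eq_top_iff.2 fun M _ => ?_
  rcases Nat.eq_zero_or_pos n with rfl | hn
  · rw [show M = 0 from Subtype.ext (Matrix.ext fun i => i.elim0)]
    exact S.zero_mem
  rw [eq_sum ⟨0, hn⟩ M]
  refine S.add_mem (S.sum_mem fun p _ => ?_) (S.sum_mem fun i _ => S.smul_mem _ (hd _ _))
  split_ifs with hp
  · exact S.smul_mem _ (h _ _ _)
  · exact S.zero_mem

/-- The elementary elements other than one generate. -/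
theorem subalgebra_eq_top (hn : 3 ≤ n) {S : LieSubalgebra k (SL' n k)} {a b : Fin n}
    (h : ∀ i j hij, ¬ (i = a ∧ j = b) → elt i j hij ∈ S) : S = ⊤ := by
  have hall : ∀ i j hij, elt i j hij ∈ S := by
    intro i j hij
    by_cases hc : i = a ∧ j = b
    · obtain ⟨l, hli, hlj⟩ : ∃ l, l ≠ i ∧ l ≠ j := Fin.exists_ne_and_ne_of_two_lt i j hn
      rw [← lie_elt_adjacent hli.symm hlj hij]
      exact S.lie_mem (h _ _ _ fun e => hlj (e.2.trans hc.2.symm))
        (h _ _ _ fun e => hli (e.1.trans hc.1.symm))
    · exact h i j hij hc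
  have hd : ∀ i j, dia i j ∈ S := by
    intro i j
    rcases eq_or_ne i j with rfl | hij
    · rw [show (dia i i : SL' n k) = 0 from Subtype.ext (by simp)]
      exact S.zero_mem
    · rw [← lie_elt_opposite hij]
      exact S.lie_mem (hall _ _ _) (hall _ _ _)
  exact LieSubalgebra.toSubmodule_injective (submodule_eq_top hall hd)

/-- **`sl n` is simple.** -/
theorem isSimple_sl [CharZero k] (hn : 3 ≤ n) : LieAlgebra.IsSimple k (SL' n k) where
  non_abelian := sl_non_abelian _ _ (by rw [Fintype.card_fin]; omega)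
  eq_bot_or_eq_top I := by
    refine or_iff_not_imp_left.2 fun hI => ?_
    obtain ⟨M, hM, hne⟩ : ∃ M ∈ I, M ≠ 0 := by
      by_contra! h
      exact hI ((LieSubmodule.eq_bot_iff I).2 h)
    have hbr : ∀ {x y : SL' n k}, y ∈ I → ⁅x, y⁆ ∈ I := fun h => lie_mem_right k _ I _ _ h
    obtain ⟨i, j, hij, hmem⟩ : ∃ i j hij, elt i j hij ∈ I := by
      by_cases hoff : ∃ i j, i ≠ j ∧ M.1 j i ≠ 0
      · obtain ⟨i, j, hij, hval⟩ := hoff
        refine ⟨i, j, hij, ?_⟩
        have h2 : ⁅(elt i j hij : SL' n k), ⁅(elt i j hij : SL' n k), M⁆⁆ =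
            (-2 * M.1 j i) • elt i j hij := by
          refine Subtype.ext ?_
          simp only [sl_bracket, val_single, SetLike.val_smul, mul_sub, sub_mul,
            single_mul_mul_single, ← mul_assoc, one_mul, mul_one]
          rw [mul_assoc M.1, single_mul_single_of_ne _ _ _ _ hij.symm, mul_zero, zero_mul,
            smul_single, smul_eq_mul, mul_one, zero_sub, sub_zero, ← neg_add',
            ← single_add]
          ext a b
          simp only [Matrix.neg_apply, single_apply]
          split_ifs <;> ring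
        have := hbr (x := elt i j hij) (hbr (x := elt i j hij) hM)
        rw [h2] at this
        have h3 := I.smul_mem (-2 * M.1 j i)⁻¹ this
        rwa [smul_smul, inv_mul_cancel₀ (mul_ne_zero (by norm_num) hval), one_smul] at h3
      · push Not at hoff
        have hdiag : M.1 = diagonal fun a => M.1 a a := Matrix.ext fun a b => by
          by_cases hab : a = b
          · subst hab; simp
          · rw [diagonal_apply_ne _ hab, hoff b a (Ne.symm hab)]
        obtain ⟨i, j, hd⟩ : ∃ i j, M.1 i i ≠ M.1 j j := by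
          by_contra! h
          have htr : ∑ a, M.1 a a = 0 := LinearMap.mem_ker.1 M.2
          refine hne (Subtype.ext (hdiag.trans (diagonal_eq_zero.2 (funext fun a => ?_))))
          have : (n : k) * M.1 a a = 0 := by
            rw [← htr, Finset.sum_congr rfl fun b _ => h b a]
            simp
          exact (mul_eq_zero.1 this).resolve_left (by
            exact_mod_cast (show n ≠ 0 by omega))
        have hij : i ≠ j := fun e => hd (by rw [e])
        refine ⟨i, j, hij, ?_⟩
        have h2 : ⁅(elt i j hij : SL' n k), M⁆ = (M.1 j j - M.1 i i) • elt i j hij := by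
          refine Subtype.ext ?_
          simp only [sl_bracket, val_single, SetLike.val_smul]
          rw [hdiag]
          ext a b
          simp only [Matrix.sub_apply, mul_diagonal, diagonal_mul, Matrix.smul_apply, single_apply,
            smul_eq_mul, diagonal_apply_eq]
          split_ifs with h
          · obtain ⟨rfl, rfl⟩ := h
            ring
          · ring
        have := hbr (x := elt i j hij) hM
        rw [h2] at this
        have h3 := I.smul_mem (M.1 j j - M.1 i i)⁻¹ this
        rwa [smul_smul, inv_mul_cancel₀ (sub_ne_zero.2 (Ne.symm hd)), one_smul] at h3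
    have right : ∀ {p q r : Fin n} (hpq : p ≠ q) (hqr : q ≠ r) (hpr : p ≠ r),
        elt p q hpq ∈ I → elt p r hpr ∈ I := fun hpq hqr hpr h => by
      rw [← lie_elt_adjacent hpq hqr hpr, ← lie_skew]
      exact neg_mem (hbr h)
    have left : ∀ {p q r : Fin n} (hpq : p ≠ q) (hrp : r ≠ p) (hrq : r ≠ q),
        elt p q hpq ∈ I → elt r q hrq ∈ I := fun hpq hrp hrq h => by
      rw [← lie_elt_adjacent hrp hpq hrq]
      exact hbr h
    have hall : ∀ p q hpq, elt p q hpq ∈ I := by
      intro p q hpq
      by_cases hqi : q = i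
      · subst hqi
        obtain ⟨c, hc, hcp⟩ : ∃ c, c ≠ q ∧ c ≠ p := Fin.exists_ne_and_ne_of_two_lt q p hn
        have h2 : elt q c hc.symm ∈ I := by
          rcases eq_or_ne c j with rfl | hcj
          exacts [hmem, right hij hcj.symm _ hmem]
        exact right hcp.symm hc _ (left hc.symm hpq _ h2)
      · have h2 : elt i q (Ne.symm hqi) ∈ I := by
          rcases eq_or_ne q j with rfl | hqj
          exacts [hmem, right hij hqj.symm _ hmem]
        rcases eq_or_ne p i with rfl | hpi
        exacts [h2, left _ hpi _ h2]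
    have hd : ∀ p q, dia p q ∈ I := by
      intro p q
      rcases eq_or_ne p q with rfl | hpq
      · rw [show (dia p p : SL' n k) = 0 from Subtype.ext (by simp)]
        exact I.zero_mem
      · rw [← lie_elt_opposite hpq]
        exact hbr (hall _ _ _)
    exact LieSubmodule.toSubmodule_injective
      ((submodule_eq_top (S := I.toSubmodule) hall hd).trans LieSubmodule.top_toSubmodule.symm)

variable {A : Type*} [Ring A] [Algebra k A]

/-- The Steinberg relations, infinitesimally. -/
structure Chevalley (X : Fin n → Fin n → A) : Prop where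
  adjacent : ∀ i j l, i ≠ j → j ≠ l → i ≠ l → ⁅X i j, X j l⁆ = X i l
  comm : ∀ i j a b, i ≠ j → a ≠ b → j ≠ a → b ≠ i → ⁅X i j, X a b⁆ = 0

/-- **A family with the relations of the elementary matrices extends to `sl n`.** -/
theorem Chevalley.exists_hom (hn : 3 ≤ n) {X : Fin n → Fin n → A} (hX : Chevalley X) :
    ∃ π : SL' n k →ₗ⁅k⁆ A, ∀ i j (h : i ≠ j), π (elt i j h) = X i j := by
  let o : Fin n := ⟨0, by omega⟩
  let h₀ : Fin n → A := fun i => ⁅X i o, X o i⁆
  let Y : Fin n → Fin n → A := fun i j => if i = j then h₀ i else X i j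
  let L : SL' n k →ₗ[k] A :=
    { toFun := fun M => ∑ i, ∑ j, M.1 i j • Y i j
      map_add' := fun M N => by
        show ∑ i, ∑ j, (M.1 + N.1) i j • Y i j = _
        simp only [Matrix.add_apply, add_smul, Finset.sum_add_distrib]
      map_smul' := fun c M => by
        simp only [SetLike.val_smul, Matrix.smul_apply, smul_eq_mul, mul_smul, Finset.smul_sum,
          RingHom.id_apply] }
  have hs : ∀ i j, ∑ a, ∑ b, (Matrix.single i j (1 : k)) a b • Y a b = Y i j := fun i j => by
    rw [Finset.sum_eq_single i (fun a _ ha => Finset.sum_eq_zero fun b _ => by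
      rw [Matrix.single_apply, if_neg fun h => ha h.1.symm, zero_smul]) (by simp),
      Finset.sum_eq_single j (fun b _ hb => by
      rw [Matrix.single_apply, if_neg fun h => hb h.2.symm, zero_smul]) (by simp)]
    simp
  have he : ∀ i j (h : i ≠ j), L (elt i j h) = X i j := fun i j h =>
    (hs i j).trans (if_neg h)
  have hd : ∀ i j, L (dia i j) = h₀ i - h₀ j := by
    intro i j
    show ∑ a, ∑ b,
      (Matrix.single i i (1 : k) - Matrix.single j j 1 : Matrix (Fin n) (Fin n) k) a b •
      Y a b = _
    simp only [Matrix.sub_apply, sub_smul, Finset.sum_sub_distrib, hs, Y, if_pos]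
  have hopp : ∀ i j, i ≠ j → ⁅X i j, X j i⁆ = h₀ i - h₀ j := by
    have hadd : ∀ i j l, i ≠ j → j ≠ l → i ≠ l →
        ⁅X i l, X l i⁆ = ⁅X i j, X j i⁆ + ⁅X j l, X l j⁆ := by
      intro i j l hij hjl hil
      rw [← hX.adjacent i j l hij hjl hil, lie_lie, hX.adjacent j l i hjl hil.symm hij.symm,
        ← lie_skew (X i j) (X l i), hX.adjacent l i j hil.symm hij hjl.symm, lie_neg,
        sub_neg_eq_add]
    intro i j hij
    have hoo : h₀ o = 0 := lie_self _
    rcases eq_or_ne i o with rfl | hio
    · rw [hoo, zero_sub]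
      exact (lie_skew _ _).symm
    rcases eq_or_ne j o with rfl | hjo
    · rw [hoo, sub_zero]
    rw [eq_sub_iff_add_eq]
    exact (hadd i j o hij hjo hio).symm
  have hee : ∀ i j (hij : i ≠ j) a b (hab : a ≠ b),
      L ⁅(elt i j hij : SL' n k), (elt a b hab : SL' n k)⁆ = ⁅X i j, X a b⁆ := by
    intro i j hij a b hab
    rcases eq_or_ne j a with rfl | hja
    · rcases eq_or_ne b i with rfl | hbi
      · rw [lie_elt_opposite hij, hd, hopp _ _ hij]
      · rw [lie_elt_adjacent hij hab hbi.symm, he, hX.adjacent _ _ _ hij hab hbi.symm]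
    · rcases eq_or_ne b i with rfl | hbi
      · rw [← lie_skew, map_neg, lie_elt_adjacent hab hij hja.symm, he, ← lie_skew (X b j),
          hX.adjacent _ _ _ hab hij hja.symm]
      · rw [lie_elt_comm hij hab hja hbi, map_zero, hX.comm _ _ _ _ hij hab hja hbi]
  have hshape : ∀ i j (hij : i ≠ j) a b (hab : a ≠ b), ¬ (j = a ∧ b = i) →
      ⁅(elt i j hij : SL' n k), (elt a b hab : SL' n k)⁆ = 0 ∨ ∃ p q hpq, ∃ c : k,
        ⁅(elt i j hij : SL' n k), (elt a b hab : SL' n k)⁆ = c • elt p q hpq := by
    intro i j hij a b hab hne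
    rcases eq_or_ne j a with rfl | hja
    · have hbi : b ≠ i := fun e => hne ⟨rfl, e⟩
      exact Or.inr ⟨i, b, hbi.symm, 1, by rw [one_smul, lie_elt_adjacent hij hab hbi.symm]⟩
    · rcases eq_or_ne b i with rfl | hbi
      · exact Or.inr ⟨a, j, hja.symm, -1, by
          rw [neg_one_smul, ← lie_skew, lie_elt_adjacent hab hij hja.symm]⟩
      · exact Or.inl (lie_elt_comm hij hab hja hbi)
  have hel : ∀ i j (hij : i ≠ j) (N : SL' n k), L ⁅(elt i j hij : SL' n k), N⁆ = ⁅X i j, L N⁆ := by
    intro i j hij
    let S : Submodule k (SL' n k) :=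
      { carrier := {N : SL' n k | L ⁅(elt i j hij : SL' n k), N⁆ = ⁅X i j, L N⁆}
        zero_mem' := by simp
        add_mem' := fun {x y} hx hy => by
          simp only [Set.mem_ofPred_eq] at *
          rw [lie_add, map_add, map_add, lie_add, hx, hy]
        smul_mem' := fun c x hx => by
          simp only [Set.mem_ofPred_eq] at *
          rw [lie_smul, map_smul, map_smul, lie_smul, hx] }
    have hS : ∀ {N : SL' n k}, L ⁅(elt i j hij : SL' n k), N⁆ = ⁅X i j, L N⁆ → N ∈ S := fun h => h
    have h1 : ∀ a b hab, elt a b hab ∈ S := fun a b hab => hS (by rw [he, hee])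
    have h2 : ∀ a b, a ≠ b → ¬ (j = a ∧ b = i) → ¬ (j = b ∧ a = i) → dia a b ∈ S := by
      intro a b hab hn1 hn2
      refine hS ?_
      have key : ∀ a b (hab : a ≠ b) c d (hcd : c ≠ d), ¬ (j = a ∧ b = i) →
          L ⁅⁅(elt i j hij : SL' n k), (elt a b hab : SL' n k)⁆, (elt c d hcd : SL' n k)⁆ =
            ⁅⁅X i j, X a b⁆, X c d⁆ := by
        intro a b hab c d hcd hne
        rcases hshape i j hij a b hab hne with h | ⟨p, q, hpq, r, h⟩
        · rw [h, zero_lie, map_zero, ← hee i j hij a b hab, h, map_zero, zero_lie]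
        · rw [h, smul_lie, map_smul, hee, ← hee i j hij a b hab, h, map_smul, he, smul_lie]
      rw [← lie_elt_opposite hab, leibniz_lie, map_add, hee, leibniz_lie (X i j) (X a b),
        key a b hab b a hab.symm hn1, ← lie_skew (elt a b hab) ⁅_, _⁆, map_neg,
        key b a hab.symm a b hab hn2, ← lie_skew (X a b) ⁅_, _⁆]
    have h3 : ∀ a b, dia a b ∈ S := by
      intro a b
      rcases eq_or_ne a b with rfl | hab
      · rw [show (dia a a : SL' n k) = 0 from Subtype.ext (by simp)]
        exact S.zero_mem
      by_cases hbad : (j = a ∧ b = i) ∨ (j = b ∧ a = i)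
      · obtain ⟨p, hpa, hpb⟩ : ∃ p, p ≠ a ∧ p ≠ b := Fin.exists_ne_and_ne_of_two_lt a b hn
        rw [← dia_add a p b]
        rcases hbad with ⟨e1, e2⟩ | ⟨e1, e2⟩
        · exact S.add_mem (h2 a p hpa.symm (fun e => hpb (e.2.trans e2.symm))
            fun e => hpa (e.1.symm.trans e1))
            (h2 p b hpb (fun e => hpa (e.1.symm.trans e1)) fun e => hpb (e.2.trans e2.symm))
        · exact S.add_mem (h2 a p hpa.symm (fun e => hpa (e.2.trans e2.symm))
            fun e => hpb (e.1.symm.trans e1))
            (h2 p b hpb (fun e => hpb (e.1.symm.trans e1)) fun e => hpa (e.2.trans e2.symm))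
      · push Not at hbad
        exact h2 a b hab (fun e => hbad.1 e.1 e.2) fun e => hbad.2 e.1 e.2
    intro N
    exact ((submodule_eq_top h1 h3).symm ▸ Submodule.mem_top : N ∈ S)
  let T : LieSubalgebra k (SL' n k) :=
    { carrier := {M | ∀ N, L ⁅M, N⁆ = ⁅L M, L N⁆}
      zero_mem' := fun N => by simp
      add_mem' := fun {x y} hx hy N => by rw [add_lie, map_add, map_add, add_lie, hx, hy]
      smul_mem' := fun c x hx N => by rw [smul_lie, map_smul, map_smul, smul_lie, hx]
      lie_mem' := fun {x y} hx hy N => by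
        rw [lie_lie, map_sub, hx, hy, hy, hx, hx y, lie_lie] }
  have hT : T = ⊤ := subalgebra_eq_top hn (a := o) (b := o) fun i j hij _ N => by
    rw [hel i j hij N, he]
  exact ⟨{ L with map_lie' := fun {x y} => (hT.symm ▸ LieSubalgebra.mem_top x : x ∈ T) y }, he⟩

end FA.SLRep

end
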