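import Fermat.Agent.SLRepresentations.Infinitesimal
import Fermat.Agent.CongruenceSL.Normal
import Fermat.Agent.WeylReducibility.Cohomology
import Mathlib.LinearAlgebra.Projection
import Mathlib.RepresentationTheory.Semisimple

/-!
# Complete reducibility, and representations of small dimension

The invariant subspaces of a normal congruence subgroup are those of `sl n`, so Weyl's theorem
and averaging over a finite quotient give complete reducibility.  A non-zero representation of
`sl n` has `n` distinct weights in a row, so in dimension less than `n` the image is finite.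
-/

set_option autoImplicit false

noncomputable section

namespace FA.SLRep

open Matrix FA.CongruenceSL

attribute [local instance 100] LieRing.ofAssociativeRing

variable {n : ℕ} {k : Type*} [Field k] [CharZero k] {V : Type*} [AddCommGroup V] [Module k V]

/-- The endomorphisms preserving a submodule. -/
def stab (W : Submodule k V) : Subalgebra k (Module.End k V) where
  carrier := {f | ∀ w ∈ W, f w ∈ W}
  mul_mem' := fun {f g} hf hg w hw => hf _ (hg w hw)
  one_mem' := fun _ hw => hw
  add_mem' := fun {f g} hf hg w hw => W.add_mem (hf w hw) (hg w hw)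
  zero_mem' := fun _ _ => W.zero_mem
  algebraMap_mem' := fun c w hw => by simpa [Algebra.algebraMap_eq_smul_one] using W.smul_mem c hw

/-- A finite-index average. -/
theorem exists_invariant_complement {G : Type*} [Group G] (ρ : Representation k G V)
    (N : Subgroup G) [N.FiniteIndex] {W W' : Submodule k V} (hc : IsCompl W W')
    (hW : ∀ g, ρ g ∈ stab W) (hW' : ∀ g ∈ N, ρ g ∈ stab W') :
    ∃ Q : Submodule k V, IsCompl W Q ∧ ∀ g, ρ g ∈ stab Q := by
  classical
  have : Finite (G ⧸ N) := Subgroup.finite_quotient_of_finiteIndex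
  have := Fintype.ofFinite (G ⧸ N)
  set P : Module.End k V := W.projection W' hc with hP
  have hPmem : ∀ v, P v ∈ W := fun v => Submodule.projection_apply_mem hc v
  have hPleft : ∀ w ∈ W, P w = w := fun w hw => Submodule.projection_apply_left hc ⟨w, hw⟩
  have hcomm : ∀ x ∈ N, ρ x * P = P * ρ x := by
    intro x hx
    refine LinearMap.ext fun v => ?_
    obtain ⟨w, hw, w', hw', rfl⟩ := Submodule.mem_sup.1
      (hc.sup_eq_top.symm ▸ Submodule.mem_top : v ∈ W ⊔ W')
    have hz : ∀ u ∈ W', P u = 0 := fun u hu => Submodule.projection_apply_right hc ⟨u, hu⟩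
    simp only [Module.End.mul_apply, map_add, hPleft w hw, hz w' hw', map_zero, add_zero,
      hPleft _ (hW x w hw), hz _ (hW' x hx w' hw')]
  let T : G ⧸ N → Module.End k V := fun q => ρ q.out * P * ρ q.out⁻¹
  have hT : ∀ g : G, T (g : G ⧸ N) = ρ g * P * ρ g⁻¹ := by
    intro g
    obtain ⟨⟨x, hx⟩, e⟩ := QuotientGroup.mk_out_eq_mul N g
    show ρ (g : G ⧸ N).out * P * ρ (g : G ⧸ N).out⁻¹ = _
    rw [e]
    show ρ (g * x) * P * ρ (g * x)⁻¹ = _
    rw [_root_.mul_inv_rev, map_mul, map_mul, mul_assoc (ρ g) (ρ x), hcomm x hx, ← mul_assoc,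
      ← mul_assoc, mul_assoc (ρ g * P) (ρ x), ← map_mul, mul_inv_cancel, map_one, mul_one]
  set c : k := (Fintype.card (G ⧸ N) : k)⁻¹
  set R : Module.End k V := c • ∑ q, T q with hR
  have heq : ∀ g, ρ g * R = R * ρ g := by
    intro g
    rw [hR, mul_smul_comm, smul_mul_assoc, Finset.mul_sum, Finset.sum_mul]
    congr 1
    refine Fintype.sum_equiv (MulAction.toPerm g) _ _ fun q => ?_
    obtain ⟨r, rfl⟩ := QuotientGroup.mk_surjective q
    show ρ g * T r = T ((g * r : G) : G ⧸ N) * ρ g
    rw [hT, hT, _root_.mul_inv_rev, map_mul, map_mul, mul_assoc _ _ (ρ g), mul_assoc (ρ r⁻¹),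
      ← map_mul ρ g⁻¹ g, inv_mul_cancel, map_one, mul_one, mul_assoc, mul_assoc, mul_assoc]
  have hmem : ∀ v, R v ∈ W := fun v => by
    simp only [hR, LinearMap.smul_apply, LinearMap.sum_apply]
    exact W.smul_mem _ (W.sum_mem fun q _ => hW _ _ (hPmem _))
  have hfix : ∀ w ∈ W, R w = w := fun w hw => by
    have h1 : ∀ q, T q w = w := fun q => by
      show ρ q.out (P (ρ q.out⁻¹ w)) = w
      rw [hPleft _ (hW _ w hw), ← Module.End.mul_apply, ← map_mul, mul_inv_cancel, map_one,
        Module.End.one_apply]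
    simp only [hR, LinearMap.smul_apply, LinearMap.sum_apply, h1, Finset.sum_const,
      Finset.card_univ, ← Nat.cast_smul_eq_nsmul k, smul_smul, c]
    rw [inv_mul_cancel₀ (Nat.cast_ne_zero.2 Fintype.card_ne_zero), one_smul]
  refine ⟨LinearMap.ker R, ⟨Submodule.disjoint_def.2 fun w hw hk => ?_, ?_⟩, fun g v hv => ?_⟩
  · rw [← hfix w hw]
    exact hk
  · refine codisjoint_iff.2 (eq_top_iff.2 fun v _ => Submodule.mem_sup.2
      ⟨R v, hmem v, v - R v, ?_, add_sub_cancel _ _⟩)
    rw [LinearMap.mem_ker, map_sub, hfix _ (hmem v), sub_self]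
  · rw [LinearMap.mem_ker] at hv ⊢
    rw [← Module.End.mul_apply, ← heq, Module.End.mul_apply, hv, map_zero]

variable [FiniteDimensional k V] [IsAlgClosed k]
  (ρ : Representation k (SpecialLinearGroup (Fin n) ℤ) V)

omit [CharZero k] [FiniteDimensional k V] [IsAlgClosed k] in
/-- A subspace invariant under the level subgroup is invariant under `sl n`. -/
theorem pi_mem_stab (hn : 3 ≤ n) {π : SL' n k →ₗ⁅k⁆ Module.End k V}
    (hπ : ∀ i j (h : i ≠ j), π (elt i j h) = X ρ i j) {W : Submodule k V}
    (hW : ∀ g ∈ elem n (lev k V), ρ g ∈ stab W) (M : SL' n k) : π M ∈ stab W := by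
  let T : LieSubalgebra k (SL' n k) :=
    { carrier := {M | π M ∈ stab W}
      zero_mem' := by simp [(stab W).zero_mem]
      add_mem' := fun {x y} hx hy => by
        show π (x + y) ∈ stab W
        rw [map_add]
        exact (stab W).add_mem hx hy
      smul_mem' := fun c x hx => by
        show π (c • x) ∈ stab W
        rw [map_smul]
        exact (stab W).smul_mem hx c
      lie_mem' := fun {x y} hx hy => by
        show π ⁅x, y⁆ ∈ stab W
        rw [LieHom.map_lie, Ring.lie_def]
        exact (stab W).sub_mem ((stab W).mul_mem hx hy) ((stab W).mul_mem hy hx) }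
  have hT : T = ⊤ := subalgebra_eq_top hn (a := ⟨0, by omega⟩) (b := ⟨0, by omega⟩)
    fun i j hij _ => by
      show π (elt i j hij) ∈ stab W
      rw [hπ, X_eq ρ hij]
      exact (stab W).smul_mem (logU_mem (hW _ (tv_mem_elem hij dvd_rfl))) _
  exact (hT.symm ▸ LieSubalgebra.mem_top M : M ∈ T)

/-- A subspace invariant under `sl n` is invariant under the level subgroup. -/
theorem rho_mem_stab (hn : 3 ≤ n) {π : SL' n k →ₗ⁅k⁆ Module.End k V}
    (hπ : ∀ i j (h : i ≠ j), π (elt i j h) = X ρ i j)
    (hequiv : ∀ g M, ρ g * π M = π (conjSL g M) * ρ g) {W : Submodule k V}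
    (hW : ∀ M, π M ∈ stab W) {g : SpecialLinearGroup (Fin n) ℤ} (hg : g ∈ elem n (lev k V)) :
    ρ g ∈ stab W := by
  let P : SpecialLinearGroup (Fin n) ℤ → Prop := fun g => ∀ W' : Submodule k V,
    (∀ M, π M ∈ stab W') → ρ g ∈ stab W' ∧ ρ g⁻¹ ∈ stab W'
  let N : Subgroup (SpecialLinearGroup (Fin n) ℤ) :=
    { carrier := {g | P g}
      one_mem' := fun W' _ => by
        rw [inv_one, map_one]
        exact ⟨(stab W').one_mem, (stab W').one_mem⟩
      mul_mem' := fun {g h} hg hh W' hW' => by
        rw [_root_.mul_inv_rev, map_mul, map_mul]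
        exact ⟨(stab W').mul_mem (hg W' hW').1 (hh W' hW').1,
          (stab W').mul_mem (hh W' hW').2 (hg W' hW').2⟩
      inv_mem' := fun {g} hg W' hW' => by
        rw [inv_inv]
        exact (hg W' hW').symm }
  have : N.Normal := ⟨fun x hx g W' hW' => by
    have hW'' : ∀ M, π M ∈ stab (W'.comap (ρ g)) := fun M w hw => by
      simp only [Submodule.mem_comap] at hw ⊢
      rw [← Module.End.mul_apply, hequiv, Module.End.mul_apply]
      exact hW' _ _ hw
    have key : ∀ y, ρ y ∈ stab (W'.comap (ρ g)) → ρ (g * y * g⁻¹) ∈ stab W' := fun y hy w hw => by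
      rw [map_mul, map_mul, Module.End.mul_apply, Module.End.mul_apply]
      refine hy _ (Submodule.mem_comap.2 ?_)
      rwa [← Module.End.mul_apply, ← map_mul, mul_inv_cancel, map_one]
    refine ⟨key x (hx _ hW'').1, ?_⟩
    rw [show (g * x * g⁻¹)⁻¹ = g * x⁻¹ * g⁻¹ by group]
    exact key _ (hx _ hW'').2⟩
  refine (elem_le (N := N) (fun i j hij W' hW' => ?_) hg W hW).1
  have hu := unipotent ρ hn hij
  have hmem : U ρ i j hij ∈ stab W' := by
    refine mem_of_logU_mem (k := k) hu ?_
    have h := (stab W').smul_mem (hW' (elt i j hij)) (lev k V : k)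
    rwa [hπ, X_eq ρ hij, smul_smul, mul_inv_cancel₀ (lev_ne_zero k V), one_smul] at h
  exact ⟨hmem, inv_mem_of_mem hu (by rw [U, ← map_mul, mul_inv_cancel, map_one]) hmem⟩

/-- **Complete reducibility.** -/
theorem isSemisimple_rep (hn : 3 ≤ n) : ρ.IsSemisimpleRepresentation := by
  obtain ⟨π, hπ, hequiv⟩ := exists_pi ρ hn
  have : LieAlgebra.IsSimple k (SL' n k) := isSimple_sl hn
  letI : LieRingModule (SL' n k) V := LieRingModule.compLieHom V π
  have : LieModule k (SL' n k) V := LieModule.compLieHom V π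
  refine ⟨fun W => ?_⟩
  let W₀ : LieSubmodule k (SL' n k) V :=
    { W.toSubmodule with
      lie_mem := fun {x m} hm =>
        pi_mem_stab ρ hn hπ (fun g _ w hw => W.apply_mem_toSubmodule g hw) x m hm }
  obtain ⟨W₁, hc⟩ := WeylReducibility.exists_isCompl_lieSubmodule W₀
  have hc' : IsCompl W.toSubmodule W₁.toSubmodule :=
    LieSubmodule.isCompl_toSubmodule.2 hc
  have : (elem n (lev k V)).FiniteIndex := finiteIndex_elem hn (Nat.factorial_pos _)
  obtain ⟨Q, hQ, hQinv⟩ := exists_invariant_complement ρ (elem n (lev k V)) hc'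
    (fun g w hw => W.apply_mem_toSubmodule g hw)
    fun g hg => rho_mem_stab ρ hn hπ hequiv (fun M w hw => W₁.lie_mem hw) hg
  refine ⟨⟨Q, fun g w hw => hQinv g w hw⟩, ?_, ?_⟩
  · exact disjoint_iff.2 (Subrepresentation.toSubmodule_injective hQ.inf_eq_bot)
  · exact codisjoint_iff.2 (Subrepresentation.toSubmodule_injective hQ.sup_eq_top)

omit [CharZero k] [FiniteDimensional k V] [IsAlgClosed k] in
/-- Operators raising the eigenvalue of `A` by one move generalized eigenvectors up. -/
theorem raise_mem {A Y : Module.End k V} (h : A * Y - Y * A = Y) {μ : k} {v : V}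
    (hv : v ∈ A.maxGenEigenspace μ) : Y v ∈ A.maxGenEigenspace (μ + 1) := by
  obtain ⟨r, hr⟩ := (Module.End.mem_maxGenEigenspace _ _ _).1 hv
  refine (Module.End.mem_maxGenEigenspace _ _ _).2 ⟨r, ?_⟩
  have hs : SemiconjBy Y (A - μ • 1) (A - (μ + 1) • 1) := by
    show Y * (A - μ • 1) = (A - (μ + 1) • 1) * Y
    rw [mul_sub, sub_mul, mul_smul_comm, mul_one, smul_mul_assoc, one_mul, add_smul, one_smul]
    rw [show A * Y = Y * A + Y from sub_eq_iff_eq_add'.1 h]
    abel
  rw [← Module.End.mul_apply, ← (hs.pow_right r).eq, Module.End.mul_apply, hr, map_zero]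

/-- **A non-trivial representation has dimension at least `n`.** -/
theorem le_finrank_of_X_ne_zero (hn : 3 ≤ n) {π : SL' n k →ₗ⁅k⁆ Module.End k V}
    {i j : Fin n} (hij : i ≠ j) (h : π (elt i j hij) ≠ 0) : n ≤ Module.finrank k V := by
  have : LieAlgebra.IsSimple k (SL' n k) := isSimple_sl hn
  have hker : π.ker = ⊥ :=
    (LieAlgebra.IsSimple.eq_bot_or_eq_top π.ker).resolve_right fun ht =>
      h (LieHom.mem_ker.1 (ht ▸ LieSubmodule.mem_top _ : elt i j hij ∈ π.ker))
  let f : Fin n → k := fun a => (∑ b : Fin n, ((b : ℕ) : k)) / n - (a : ℕ)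
  let D : SL' n k := ⟨diagonal f, by
    show Matrix.trace (diagonal f) = 0
    simp only [f]
    rw [trace_diagonal, Finset.sum_sub_distrib, Finset.sum_const, Finset.card_univ,
      Fintype.card_fin, nsmul_eq_mul, mul_div_cancel₀ _ (by exact_mod_cast (show n ≠ 0 by omega)),
      sub_self]⟩
  set A := π D with hA
  have hshift : ∀ a b : Fin n, ∀ hab : a ≠ b, (b : ℕ) = a + 1 →
      A * π (elt a b hab) - π (elt a b hab) * A = π (elt a b hab) := by
    intro a b hab hb
    have hD : ⁅D, (elt a b hab : SL' n k)⁆ = elt a b hab := by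
      refine Subtype.ext ?_
      rw [LieAlgebra.SpecialLinear.sl_bracket]
      ext p q
      simp only [D, f, Matrix.sub_apply, diagonal_mul, mul_diagonal,
        LieAlgebra.SpecialLinear.val_single,
        Matrix.single_apply]
      split_ifs with e
      · obtain ⟨rfl, rfl⟩ := e
        rw [hb]
        push_cast
        ring
      · ring
    rw [hA, ← Ring.lie_def, ← LieHom.map_lie, hD]
  let o : Fin n := ⟨0, by omega⟩
  let v' : V → Prop := fun v => v ≠ 0
  have chain : ∀ r : ℕ, ∀ hr : r + 1 < n, ∀ μ v, v ∈ A.maxGenEigenspace μ →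
      π (elt o ⟨r + 1, hr⟩ (by simp [o, Fin.ext_iff])) v ≠ 0 →
      π (elt o ⟨r + 1, hr⟩ (by simp [o, Fin.ext_iff])) v ∈ A.maxGenEigenspace (μ + (r + 1 : ℕ)) ∧
        ∀ i : ℕ, i ≤ r + 1 → A.maxGenEigenspace (μ + (i : k)) ≠ ⊥ := by
    intro r
    induction r with
    | zero =>
      intro hr μ v hv hne
      have hmem := raise_mem (hshift o ⟨1, hr⟩ (by simp [o, Fin.ext_iff]) rfl) hv
      refine ⟨by simpa using hmem, fun i hi hbot => ?_⟩
      rcases Nat.le_one_iff_eq_zero_or_eq_one.1 hi with rfl | rfl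
      · rw [Nat.cast_zero, add_zero] at hbot
        rw [hbot, Submodule.mem_bot] at hv
        exact hne (by rw [hv, map_zero])
      · rw [Nat.cast_one] at hbot
        rw [hbot, Submodule.mem_bot] at hmem
        exact hne hmem
    | succ r ih =>
      intro hr μ v hv hne
      set a : Fin n := ⟨r + 1, by omega⟩
      set b : Fin n := ⟨r + 2, hr⟩
      have hoa : o ≠ a := by simp [o, a, Fin.ext_iff]
      have hab : a ≠ b := by simp [a, b, Fin.ext_iff]
      have hob : o ≠ b := by simp [o, b, Fin.ext_iff]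
      set Y := π (elt o a hoa)
      set Z := π (elt a b hab)
      have hYZ : π (elt o b hob) = Y * Z - Z * Y := by
        rw [← lie_elt_adjacent hoa hab hob, LieHom.map_lie, Ring.lie_def]
      have hZ := hshift a b hab rfl
      have key : ∀ μ v, v ∈ A.maxGenEigenspace μ → Y v ≠ 0 →
          Y v ∈ A.maxGenEigenspace (μ + (r + 1 : ℕ)) := fun μ v hv h0 => (ih _ μ v hv h0).1
      have hYmem : ∀ μ v, v ∈ A.maxGenEigenspace μ →
          Y v ∈ A.maxGenEigenspace (μ + (r + 1 : ℕ)) := fun μ v hv => by
        by_cases h0 : Y v = 0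
        · rw [h0]; exact Submodule.zero_mem _
        · exact key μ v hv h0
      have h1 : Y (Z v) ∈ A.maxGenEigenspace (μ + (r + 2 : ℕ)) := by
        have := hYmem _ _ (raise_mem hZ hv)
        rwa [add_assoc, show (1 : k) + (r + 1 : ℕ) = (r + 2 : ℕ) by push_cast; ring] at this
      have h2 : Z (Y v) ∈ A.maxGenEigenspace (μ + (r + 2 : ℕ)) := by
        have := raise_mem hZ (hYmem _ _ hv)
        rwa [add_assoc, show ((r + 1 : ℕ) : k) + 1 = (r + 2 : ℕ) by push_cast; ring] at this
      show π (elt o b hob) v ∈ _ ∧ _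
      have hval : π (elt o b hob) v = Y (Z v) - Z (Y v) := by rw [hYZ]; rfl
      have hne' : Y (Z v) - Z (Y v) ≠ 0 := hval ▸ hne
      rw [hval]
      refine ⟨Submodule.sub_mem _ h1 h2, fun i hi hbot => ?_⟩
      by_cases h0 : Y (Z v) = 0
      · have h0' : Z (Y v) ≠ 0 := fun e => hne' (by rw [h0, e, sub_zero])
        rcases Nat.lt_or_ge i (r + 2) with hlt | hge
        · exact (ih _ μ v hv fun e => h0' (by rw [e, map_zero])).2 i (by omega) hbot
        · obtain rfl : i = r + 2 := by omega
          rw [hbot, Submodule.mem_bot] at h2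
          exact h0' h2
      · have hboth := (ih _ (μ + 1) (Z v) (raise_mem hZ hv) h0).2
        rcases Nat.eq_zero_or_pos i with rfl | hi0
        · rw [Nat.cast_zero, add_zero] at hbot
          rw [hbot, Submodule.mem_bot] at hv
          exact h0 (by rw [hv, map_zero, map_zero])
        · refine hboth (i - 1) (by omega) ?_
          rwa [add_assoc, show (1 : k) + ((i - 1 : ℕ) : k) = i by
            rw [Nat.cast_sub hi0, Nat.cast_one]; ring]
  have hlast : π (elt o ⟨n - 2 + 1, by omega⟩ (by simp [o, Fin.ext_iff])) ≠ 0 := fun e => by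
    have hmem : elt o (⟨n - 2 + 1, by omega⟩ : Fin n) (by simp [o, Fin.ext_iff]) ∈ π.ker :=
      LieHom.mem_ker.2 e
    rw [hker, LieSubmodule.mem_bot] at hmem
    have := congrFun (congrFun (congrArg Subtype.val hmem) o) ⟨n - 2 + 1, by omega⟩
    simp at this
  obtain ⟨μ, v, hv, hne⟩ : ∃ μ, ∃ v ∈ A.maxGenEigenspace μ,
      π (elt o ⟨n - 2 + 1, by omega⟩ (by simp [o, Fin.ext_iff])) v ≠ 0 := by
    by_contra! hall
    refine hlast (LinearMap.ext fun v => ?_)
    have hv : v ∈ ⨆ μ : k, A.maxGenEigenspace μ :=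
      (Module.End.iSup_maxGenEigenspace_eq_top A).symm ▸ Submodule.mem_top
    induction hv using Submodule.iSup_induction' with
    | mem μ x hx => exact hall μ x hx
    | zero => simp
    | add x y _ _ hx hy => rw [map_add, hx, hy]; simp
  have heig : ∀ i : Fin n, A.HasEigenvalue (μ + ((i : ℕ) : k)) := fun i => by
    refine Module.End.hasEigenvalue_of_hasGenEigenvalue (k := Module.finrank k V) fun e => ?_
    refine (chain (n - 2) (by omega) μ v hv hne).2 i (by omega) ?_
    rw [Module.End.maxGenEigenspace_eq_genEigenspace_finrank]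
    exact e
  choose w hw using fun i => (heig i).exists_hasEigenvector
  have hli := Module.End.eigenvectors_linearIndependent' A (fun i : Fin n => μ + ((i : ℕ) : k))
    (fun a b e => Fin.ext (Nat.cast_injective (add_left_cancel e))) w hw
  simpa using hli.fintype_card_le_finrank

/-- **Small representations have finite image.** -/
theorem finite_range_rep (hn : 3 ≤ n) (hd : Module.finrank k V < n) : (Set.range ρ).Finite := by
  obtain ⟨π, hπ, -⟩ := exists_pi ρ hn
  have hker : elem n (lev k V) ≤ ρ.ker := elem_le fun i j hij => by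
    have h0 : X ρ i j = 0 := by
      by_contra h
      exact absurd (le_finrank_of_X_ne_zero hn hij (by rwa [hπ i j hij])) (by omega)
    rw [X_eq ρ hij, smul_eq_zero, inv_eq_zero] at h0
    exact eq_one_of_logU (k := k) (unipotent ρ hn hij)
      (h0.resolve_left (lev_ne_zero k V))
  have : (elem n (lev k V)).FiniteIndex := finiteIndex_elem hn (Nat.factorial_pos _)
  have : Finite (SpecialLinearGroup (Fin n) ℤ ⧸ elem n (lev k V)) :=
    Subgroup.finite_quotient_of_finiteIndex
  refine (Set.finite_range fun q : SpecialLinearGroup (Fin n) ℤ ⧸ elem n (lev k V) =>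
    ρ q.out).subset ?_
  rintro _ ⟨g, rfl⟩
  obtain ⟨⟨x, hx⟩, e⟩ := QuotientGroup.mk_out_eq_mul (elem n (lev k V)) g
  refine ⟨(g : SpecialLinearGroup (Fin n) ℤ ⧸ elem n (lev k V)), ?_⟩
  show ρ _ = _
  rw [e, map_mul, (hker hx : ρ x = 1), mul_one]

end FA.SLRep

end
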